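import Fermat.Agent.S48.An1.Desc.F1
import Fermat.Agent.S48.X1.Inst

/-!
# S48 / An1 / Desc / Inst : descent `ℂ → ℚ̄` for the function field of `X₁(M)`

`descent1` : every `f ∈ D_m(FC1 M)` is, up to an `m`-th power, the base change of an element of `F1(M)`.
-/

set_option autoImplicit false
set_option linter.unusedSectionVars false

open AlgebraicCurve ModularCurve
open scoped IntermediateField MatrixGroups

namespace Fermat.Agent.S48.An1.Desc

open Fermat.Agent.S24 Fermat.Agent.ES.An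

noncomputable section

variable (M : ℕ) [NeZero M]

theorem range_S1 : Set.range (X1.S1 M) = insert (jqModC ℂ) (GC1 M) := by
  ext x
  constructor
  · rintro ⟨i, rfl⟩
    cases i with
    | none => exact Set.mem_insert _ _
    | some a => exact Set.mem_insert_of_mem _ ⟨a, rfl⟩
  · rintro (rfl | ⟨a, rfl⟩)
    · exact ⟨none, rfl⟩
    · exact ⟨some a, rfl⟩

theorem FC1_eq : X1.FC1 M = IntermediateField.adjoin ℂ (insert (jqModC ℂ) (GC1 M)) := by
  rw [X1.FC1, range_S1]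

theorem stable_FC1' (σ : ℂ ≃+* ℂ) (x : LaurentSeries ℂ) (hx : x ∈ X1.FC1 M) :
    coeffMap (σ : ℂ →+* ℂ) x ∈ X1.FC1 M := by
  rw [FC1_eq] at hx ⊢
  exact stable_FC1 M σ x hx

/-- the hypotheses of the generic descent for `FC1 M`. -/
theorem data1 (hM : 5 ≤ M) : Data (X1.FC1 M) :=
  data_of_model (X1.modelC1 M hM) rfl (stable_FC1' M)

theorem ker1 (hM : 5 ≤ M) : Ker (X1.modelC1 M hM) := fun m hm w f hw hinv =>
  (X1.gens1 M hM).mem_range_of_pow (X1.T_mem_Gpm M) m hm w f hw hinv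

/-- **Descent for `X₁(M)`.** -/
theorem descent1 (hM : 5 ≤ M) (m : ℕ) (hm : 0 < m) (f : X1.FC1 M) (hf0 : f ≠ 0)
    (hf : DivBy ℂ m f) :
    ∃ (f' : (X1.F1Q M).F) (h : X1.FC1 M), h ≠ 0 ∧ (X1.gens1 M hM).bc f' = f * h ^ m := by
  obtain ⟨w₀, h, hh, e⟩ := descent_of_model (data1 M hM) (X1.modelC1 M hM) (ker1 M hM) m hm f hf0 hf
  have hmem : w₀ ^ m ∈ (X1.gens1 M hM).FQ := by
    apply (X1.gens1 M hM).mem_FQ_of_coeffMap_mem (X1.T_mem_Gpm M)
    rw [e]
    exact (f * h ^ m).2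
  exact ⟨⟨w₀ ^ m, hmem⟩, h, hh, Subtype.ext e⟩

end

end Fermat.Agent.S48.An1.Desc
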