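import Fermat.Agent.ES.An.Desc
import Fermat.Agent.Crux.GM.Core

/-!
# S48 / An1 / Desc / Gen : descent of classes from `ℂ` to `ℚ̄`, generic in the field

Port of `ES/An/Desc.lean` to an arbitrary intermediate field `FC` of `ℂ((q)) / ℂ` such that
* `j ∈ FC`, `FC` is finite over `ℂ(j)`;
* `FC` is stable under `coeffMap σ`, `σ ∈ Aut(ℂ)`.

`descent` : `f ∈ D_m(FC)` whose `Aut(ℂ)`-conjugates fall into finitely many classes mod `m`-th powers is, up to an `m`-th power,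
the `m`-th power of a series with algebraic coefficients... more precisely `f * h ^ m = coeffMap iotaC (w₀ ^ m)`.
-/

set_option autoImplicit false
set_option linter.unusedSectionVars false

open AlgebraicCurve ModularCurve
open scoped IntermediateField

namespace Fermat.Agent.S48.An1.Desc

open Fermat.Agent.S24 Fermat.Agent.ES.An Fermat.Agent.ES.An.Desc

noncomputable section

/-- the hypotheses on the field. -/
structure Data (FC : IntermediateField ℂ (LaurentSeries ℂ)) : Prop where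
  j_mem : jqModC ℂ ∈ FC
  fin : FiniteDimensional ℂ⟮(⟨jqModC ℂ, j_mem⟩ : FC)⟯ FC
  stable : ∀ (σ : ℂ ≃+* ℂ) (x : LaurentSeries ℂ), x ∈ FC → coeffMap (σ : ℂ →+* ℂ) x ∈ FC

theorem order_jqModC : (jqModC ℂ).order = -1 := by
  have h := Fermat.Agent.S17.Base.order_coeffEmb_jq (L := ℂ)
  rwa [coeffEmb, ← jqModC_rat, coeffMap_jqModC] at h

variable {FC : IntermediateField ℂ (LaurentSeries ℂ)} (D : Data FC)

include D

/-- `j`. -/
def Data.jC : FC := ⟨jqModC ℂ, D.j_mem⟩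

theorem Data.jC_ne_zero : D.jC ≠ 0 := by
  intro h
  have h1 : jqModC ℂ = 0 := congrArg Subtype.val h
  have h2 := order_jqModC
  rw [h1, HahnSeries.order_zero] at h2
  norm_num at h2

theorem Data.transcendental_jC : Transcendental ℂ D.jC := by
  have h := Crux.GM.transcendental_of_order_neg (jqModC ℂ) (by rw [order_jqModC]; norm_num)
  intro halg
  exact h (halg.algHom FC.val)

theorem Data.isFF : Fermat.Agent.S17.FF.IsFF ℂ FC := ⟨⟨D.jC, D.transcendental_jC, D.fin⟩⟩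

/-- the semilinear automorphism `coeffMap σ`. -/
def Data.sig (σ : ℂ ≃+* ℂ) : FC ≃+* FC where
  toFun x := ⟨coeffMap (σ : ℂ →+* ℂ) (x : LaurentSeries ℂ), D.stable σ _ x.2⟩
  invFun x := ⟨coeffMap (σ.symm : ℂ →+* ℂ) (x : LaurentSeries ℂ), D.stable σ.symm _ x.2⟩
  left_inv x := Subtype.ext <| by
    show coeffMap (σ.symm : ℂ →+* ℂ) (coeffMap (σ : ℂ →+* ℂ) (x : LaurentSeries ℂ))
      = (x : LaurentSeries ℂ)
    rw [coeffMap_coeffMap,
      coeffMap_congr (g := RingHom.id ℂ) (RingHom.ext fun a => σ.symm_apply_apply a)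
        (x : LaurentSeries ℂ), coeffMap_id]
  right_inv x := Subtype.ext <| by
    show coeffMap (σ : ℂ →+* ℂ) (coeffMap (σ.symm : ℂ →+* ℂ) (x : LaurentSeries ℂ))
      = (x : LaurentSeries ℂ)
    rw [coeffMap_coeffMap,
      coeffMap_congr (g := RingHom.id ℂ) (RingHom.ext fun a => σ.apply_symm_apply a)
        (x : LaurentSeries ℂ), coeffMap_id]
  map_mul' x y :=
    Subtype.ext (map_mul (coeffMap (σ : ℂ →+* ℂ)) (x : LaurentSeries ℂ) (y : LaurentSeries ℂ))
  map_add' x y :=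
    Subtype.ext (map_add (coeffMap (σ : ℂ →+* ℂ)) (x : LaurentSeries ℂ) (y : LaurentSeries ℂ))

theorem Data.coe_sig (σ : ℂ ≃+* ℂ) (x : FC) :
    ((D.sig σ x : FC) : LaurentSeries ℂ) = coeffMap (σ : ℂ →+* ℂ) (x : LaurentSeries ℂ) := rfl

theorem Data.sig_symm_sig (σ : ℂ ≃+* ℂ) (x : FC) : D.sig σ.symm (D.sig σ x) = x :=
  (D.sig σ).symm_apply_apply x

/-- as an element of the Prelude's `SemilinearAut`. -/
def Data.sigS (σ : ℂ ≃+* ℂ) : SemilinearAut ℂ FC :=
  ⟨(D.sig σ, σ), fun a => Subtype.ext (coeffMap_algebraMap (σ : ℂ →+* ℂ) a)⟩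

theorem Data.ord_sig (σ : ℂ ≃+* ℂ) (P : Place ℂ FC) (f : FC) :
    P.ord (D.sig σ f) = ((D.sigS σ)⁻¹ • P).ord f := by
  have h1 := SemilinearAut.ord_smul (D.sigS σ) ((D.sigS σ)⁻¹ • P) f
  rw [smul_inv_smul] at h1
  exact h1

theorem Data.sig_jC (σ : ℂ ≃+* ℂ) : D.sig σ D.jC = D.jC :=
  Subtype.ext (coeffMap_jqModC (σ : ℂ →+* ℂ))

/-- **`D_m` is stable under `Aut(ℂ)`.** -/
theorem Data.divBy_sig (m : ℕ) (f : FC) (hf : DivBy ℂ m f) (σ : ℂ ≃+* ℂ) :
    DivBy ℂ m (D.sig σ f) := by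
  intro P
  rw [D.ord_sig]
  exact hf _

/-- the cusp `∞`. -/
theorem Data.exists_infP : ∃ v : Place ℂ FC, ∀ f : FC, f ≠ 0 →
    v.ord f = (f : LaurentSeries ℂ).order := by
  have hcoe : ∀ f : FC, f ≠ 0 → (f : LaurentSeries ℂ) ≠ 0 := fun f hf h => hf (Subtype.ext h)
  obtain ⟨v, c, hc, hv⟩ := Fermat.Agent.S24.FF.exists_place_of_ordFun (K := ℂ) (F := FC)
    (fun f => (f : LaurentSeries ℂ).order)
    (fun f g hf hg => HahnSeries.order_mul (hcoe f hf) (hcoe g hg))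
    (fun f g _ _ hfg => HahnSeries.min_order_le_order_add (hcoe _ hfg))
    (fun a ha => by
      show (algebraMap ℂ (LaurentSeries ℂ) a).order = 0
      rw [algebraMap_laurentSeries_eq_single, HahnSeries.order_single ha])
    ⟨D.jC, D.jC_ne_zero, by
      show (jqModC ℂ).order ≠ 0
      rw [order_jqModC]
      norm_num⟩
  have h1 := hv _ D.jC_ne_zero
  have h1' : (-1 : ℤ) = c * v.ord D.jC := by
    rw [← h1]
    exact order_jqModC.symm
  have hc1 : c = 1 := by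
    have h2 : (c : ℤ) ∣ 1 := ⟨-v.ord _, by rw [mul_neg, ← h1']; norm_num⟩
    have h3 := Int.eq_one_of_dvd_one (by positivity) h2
    exact_mod_cast h3
  refine ⟨v, fun f hf => ?_⟩
  have := hv f hf
  rw [hc1] at this
  simpa using this.symm

/-- the set of `m`-th roots of elements of the class of `g`, with poles bounded by `r (j)_∞`. -/
def Data.Wset (m r : ℕ) (g : FC) : Set (LaurentSeries ℂ) :=
  {w | ∃ h : FC, w ^ m = ((g * h ^ m : FC) : LaurentSeries ℂ) ∧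
    (h = 0 ∨ ∀ P : Place ℂ FC,
      0 ≤ P.ord (g * h ^ m) + (m : ℤ) * ((r : ℤ) * max (-P.ord D.jC) 0))}

theorem Data.Wset_mul_pow_subset (m r : ℕ) (g k : FC) :
    D.Wset m r (g * k ^ m) ⊆ D.Wset m r g := by
  rintro w ⟨h, h1, h2⟩
  have e : g * k ^ m * h ^ m = g * (k * h) ^ m := by ring
  refine ⟨k * h, by rw [h1, e], ?_⟩
  rcases h2 with rfl | h2
  · left; simp
  · right
    intro P
    rw [← e]
    exact h2 P

theorem Data.Wset_mul_pow (m r : ℕ) (g k : FC) (hk : k ≠ 0) :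
    D.Wset m r (g * k ^ m) = D.Wset m r g := by
  refine (D.Wset_mul_pow_subset m r g k).antisymm ?_
  have := D.Wset_mul_pow_subset m r (g * k ^ m) k⁻¹
  rwa [mul_assoc, ← mul_pow, mul_inv_cancel₀ hk, one_pow, mul_one] at this

theorem Data.coeffMap_mem_Wset (m r : ℕ) (g : FC) (σ : ℂ ≃+* ℂ) {w : LaurentSeries ℂ}
    (hw : w ∈ D.Wset m r g) : coeffMap (σ : ℂ →+* ℂ) w ∈ D.Wset m r (D.sig σ g) := by
  obtain ⟨h, h1, h2⟩ := hw
  have e : D.sig σ g * D.sig σ h ^ m = D.sig σ (g * h ^ m) := by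
    rw [map_mul, map_pow]
  refine ⟨D.sig σ h, ?_, ?_⟩
  · rw [← map_pow, h1, e]
    rfl
  · rcases h2 with rfl | h2
    · left; simp
    · right
      intro P
      rw [e, D.ord_sig, ← D.sig_jC σ, D.ord_sig]
      exact h2 _

theorem Data.image_coeffMap_Wset (m r : ℕ) (g : FC) (σ : ℂ ≃+* ℂ) :
    coeffMap (σ : ℂ →+* ℂ) '' D.Wset m r g = D.Wset m r (D.sig σ g) := by
  apply Set.Subset.antisymm
  · rintro _ ⟨w, hw, rfl⟩
    exact D.coeffMap_mem_Wset m r g σ hw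
  · intro w hw
    refine ⟨coeffMap (σ.symm : ℂ →+* ℂ) w, ?_, ?_⟩
    · have := D.coeffMap_mem_Wset m r _ σ.symm hw
      rwa [D.sig_symm_sig] at this
    · rw [coeffMap_coeffMap, coeffMap_congr (g := RingHom.id ℂ)
        (RingHom.ext fun a => σ.apply_symm_apply a), coeffMap_id]

open Fermat.Agent.S17 Fermat.Agent.S17.FF Fermat.Agent.S17.FF.Riemann Fermat.Agent.S24.FF

/-- the divisor `(div f)/m + r (j)_∞`. -/
def Data.Dd (m r : ℕ) (f : FC) : Divisor ℂ FC :=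
  have := D.isFF
  (divf (K := ℂ) f).mapRange (fun z => z / (m : ℤ)) (Int.zero_ediv _) + r • poleDiv (K := ℂ) D.jC

theorem Data.Dd_apply (m r : ℕ) (f : FC) (P : Place ℂ FC) :
    D.Dd m r f P = P.ord f / (m : ℤ) + (r : ℤ) * max (-P.ord D.jC) 0 := by
  have := D.isFF
  simp [Data.Dd, poleDiv_apply]

theorem Data.cond_iff (m r : ℕ) (hm : 0 < m) (f h : FC) (hf0 : f ≠ 0) (hh : h ≠ 0)
    (hf : DivBy ℂ m f) (P : Place ℂ FC) :
    0 ≤ P.ord (f * h ^ m) + (m : ℤ) * ((r : ℤ) * max (-P.ord D.jC) 0) ↔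
      0 ≤ P.ord h + D.Dd m r f P := by
  obtain ⟨k, hk⟩ := hf P
  have hm' : (0 : ℤ) < m := by exact_mod_cast hm
  rw [D.Dd_apply, P.ord_mul hf0 (pow_ne_zero _ hh), ord_pow, hk, Int.mul_ediv_cancel_left _ hm'.ne']
  have e : (m : ℤ) * k + m * P.ord h + m * ((r : ℤ) * max (-P.ord D.jC) 0) =
      m * (P.ord h + (k + (r : ℤ) * max (-P.ord D.jC) 0)) := by ring
  rw [e, mul_nonneg_iff_of_pos_left hm']

theorem Data.Wset_eq (m r : ℕ) (hm : 0 < m) (f : FC) (hf0 : f ≠ 0) (hf : DivBy ℂ m f)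
    (u : LaurentSeries ℂ) (hu : u ^ m = (f : LaurentSeries ℂ)) :
    D.Wset m r f = (fun h : FC => u * (h : LaurentSeries ℂ)) '' (LSp (D.Dd m r f) : Set FC) := by
  have hu0 : u ≠ 0 := by
    rintro rfl
    rw [zero_pow hm.ne'] at hu
    exact hf0 (Subtype.ext hu.symm)
  apply Set.Subset.antisymm
  · rintro w ⟨h, h1, h2⟩
    rcases eq_or_ne h 0 with rfl | hh
    · refine ⟨0, Submodule.zero_mem _, ?_⟩
      have : w ^ m = 0 := by rw [h1, zero_pow hm.ne', mul_zero]; rfl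
      simp [pow_eq_zero_iff hm.ne' |>.mp this]
    · have h2 := h2.resolve_left hh
      have hh' : (h : LaurentSeries ℂ) ≠ 0 := fun e => hh (Subtype.ext e)
      have h3 : (w / (u * (h : LaurentSeries ℂ))) ^ m = 1 := by
        rw [div_pow, h1, mul_pow, hu]
        exact div_self (mul_ne_zero (fun e => hf0 (Subtype.ext e)) (pow_ne_zero _ hh'))
      obtain ⟨c, hc, hc'⟩ := exists_const_of_pow_eq_one m hm _ h3
      refine ⟨c • h, Submodule.smul_mem _ _
        (Or.inr fun P => (D.cond_iff m r hm f h hf0 hh hf P).mp (h2 P)), ?_⟩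
      rw [div_eq_iff (mul_ne_zero hu0 hh')] at hc'
      have e : ((c • h : FC) : LaurentSeries ℂ) =
          algebraMap ℂ (LaurentSeries ℂ) c * (h : LaurentSeries ℂ) := by
        rw [Algebra.smul_def]; rfl
      rw [hc']
      show u * ((c • h : FC) : LaurentSeries ℂ) = _
      rw [e]
      ring
  · rintro _ ⟨h, hh, rfl⟩
    refine ⟨h, ?_, ?_⟩
    · rw [mul_pow, hu]; rfl
    · rcases eq_or_ne h 0 with rfl | hh0
      · exact Or.inl rfl
      · right
        intro P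
        exact (D.cond_iff m r hm f h hf0 hh0 hf P).mpr ((hh.resolve_left hh0) P)

theorem Data.degree_Dd (m r : ℕ) (hm : 0 < m) (f : FC) (hf : DivBy ℂ m f) :
    (r : ℤ) ≤ Divisor.degree (D.Dd m r f) := by
  have := D.isFF
  have h1 : Divisor.degree ((divf (K := ℂ) f).mapRange (fun z => z / (m : ℤ)) (Int.zero_ediv _)) = 0 := by
    have h2 : m • ((divf (K := ℂ) f).mapRange (fun z => z / (m : ℤ)) (Int.zero_ediv _)) = divf (K := ℂ) f := by
      ext P
      simp only [Finsupp.smul_apply, Finsupp.mapRange_apply, divf_apply, nsmul_eq_mul]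
      exact Int.mul_ediv_cancel' (hf P)
    have h3 := congrArg Divisor.degree h2
    rw [map_nsmul, degree_divf, nsmul_eq_mul] at h3
    have hm' : (m : ℤ) ≠ 0 := by exact_mod_cast hm.ne'
    exact (mul_eq_zero.mp h3).resolve_left hm'
  obtain ⟨v, hv⟩ := D.exists_infP
  have h4 : (1 : ℤ) ≤ Divisor.degree (poleDiv (K := ℂ) D.jC) := by
    refine le_trans ?_ (LBasic.le_degree (poleDiv_nonneg D.jC) v)
    rw [poleDiv_apply, hv _ D.jC_ne_zero]
    show (1 : ℤ) ≤ max (-(jqModC ℂ).order) 0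
    rw [order_jqModC]
    norm_num
  rw [Data.Dd, map_add, h1, zero_add, map_nsmul, nsmul_eq_mul]
  nlinarith

omit D in
theorem coe_smul_FC (c : ℂ) (h : FC) : ((c • h : FC) : LaurentSeries ℂ) =
    algebraMap ℂ (LaurentSeries ℂ) c * (h : LaurentSeries ℂ) := by
  rw [Algebra.smul_def]; rfl

omit D in
/-- `h ↦` coefficients of `u * h`. -/
def PhiG (u : LaurentSeries ℂ) : FC →ₗ[ℂ] (ℤ → ℂ) where
  toFun h := cf (u * (h : LaurentSeries ℂ))
  map_add' a b := by
    funext n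
    show (u * ((a : LaurentSeries ℂ) + (b : LaurentSeries ℂ))).coeff n = _
    rw [mul_add]; rfl
  map_smul' c a := by
    funext n
    show (u * ((c • a : FC) : LaurentSeries ℂ)).coeff n = c * (u * (a : LaurentSeries ℂ)).coeff n
    rw [coe_smul_FC, mul_left_comm, algebraMap_laurentSeries_eq_single, HahnSeries.coeff_single_mul,
      sub_zero]

/-- **Descent.** -/
theorem Data.descent (m : ℕ) (hm : 0 < m) (f : FC) (hf0 : f ≠ 0) (hf : DivBy ℂ m f)
    (hreps : ∃ S : Finset FC, ∀ σ : ℂ ≃+* ℂ, ∃ s ∈ S, ∃ h : FC, h ≠ 0 ∧ D.sig σ f = s * h ^ m) :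
    ∃ (w₀ : LaurentSeries Kb) (h : FC), h ≠ 0 ∧
      coeffMap iotaC (w₀ ^ m) = ((f * h ^ m : FC) : LaurentSeries ℂ) := by
  classical
  have := D.isFF
  -- the formal root `u`
  have hf0' : (f : LaurentSeries ℂ) ≠ 0 := fun e => hf0 (Subtype.ext e)
  obtain ⟨vinf, hvinf⟩ := D.exists_infP
  have hord : (m : ℤ) ∣ (f : LaurentSeries ℂ).order := by
    rw [← hvinf f hf0]; exact hf _
  obtain ⟨u, hu⟩ := exists_pow_eq_laurentSeries m hm _ hf0' hord
  have hu0 : u ≠ 0 := by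
    rintro rfl
    rw [zero_pow hm.ne'] at hu
    exact hf0' hu.symm
  -- choice of `r`
  obtain ⟨γ, hγ⟩ := exists_bound ℂ FC
  set r := (γ + 1).toNat with hr
  have hell : 0 < ell (D.Dd m r f) := by
    have h1 := hγ (D.Dd m r f)
    have h2 := D.degree_Dd m r hm f hf
    have h3 : γ + 1 ≤ r := Int.self_le_toNat _
    omega
  obtain ⟨z, hz0, hz⟩ := exists_ne_zero_mem_of_ell_pos hell
  -- the space `V`
  let V : Submodule ℂ (ℤ → ℂ) := (LSp (D.Dd m r f)).map (PhiG u)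
  have hVset : (V : Set (ℤ → ℂ)) = cf '' D.Wset m r f := by
    rw [D.Wset_eq m r hm f hf0 hf u hu, Set.image_image]
    rfl
  have hPhi : ∀ h : FC, PhiG u h = 0 → h = 0 := by
    intro h hh
    have h1 : u * (h : LaurentSeries ℂ) = 0 := cf_injective hh
    exact Subtype.ext ((mul_eq_zero.mp h1).resolve_left hu0)
  have hV : V ≠ ⊥ := by
    intro hbot
    have h1 : PhiG u z ∈ V := ⟨z, hz, rfl⟩
    rw [hbot, Submodule.mem_bot] at h1
    exact hz0 (hPhi z h1)
  obtain ⟨S, hS⟩ := hreps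
  have hfin : (Set.range fun σ : ℂ ≃+* ℂ =>
      (fun v : ℤ → ℂ => fun i => σ (v i)) '' (V : Set (ℤ → ℂ))).Finite := by
    refine (S.finite_toSet.image (fun s => cf '' D.Wset m r s)).subset ?_
    rintro _ ⟨σ, rfl⟩
    obtain ⟨s, hs, h, hh, e⟩ := hS σ
    refine ⟨s, hs, ?_⟩
    show cf '' D.Wset m r s = (fun v : ℤ → ℂ => fun i => σ (v i)) '' (V : Set (ℤ → ℂ))
    rw [← D.Wset_mul_pow m r s h hh, ← e, ← D.image_coeffMap_Wset, hVset, Set.image_image,
      Set.image_image]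
    rfl
  obtain ⟨v, hvV, hv0, hvalg⟩ := exists_algebraic_vector V hV hfin
  obtain ⟨h, hh, rfl⟩ := hvV
  have hh0 : h ≠ 0 := by
    rintro rfl
    exact hv0 (map_zero _)
  obtain ⟨w₀, hw₀⟩ := exists_coeffMap_eq (u * (h : LaurentSeries ℂ)) hvalg
  refine ⟨w₀, h, hh0, ?_⟩
  rw [map_pow, hw₀, mul_pow, hu]; rfl

omit D in
/-- finitely many characters `⇒` finitely many classes. -/
theorem exists_finite_reps {F X ι : Type*} [Field F] (m : ℕ) (HasChar : F → X → Prop) (T : Set X)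
    (hT : T.Finite) (g : ι → F) (h1 : ∀ i, ∃ χ ∈ T, HasChar (g i) χ)
    (h2 : ∀ (a b : F) (χ : X), HasChar a χ → HasChar b χ → ∃ k : F, k ≠ 0 ∧ b = a * k ^ m) :
    ∃ S : Finset F, ∀ i, ∃ s ∈ S, ∃ h : F, h ≠ 0 ∧ g i = s * h ^ m := by
  classical
  let rep : X → F := fun χ => if h : ∃ a : F, HasChar a χ then h.choose else 1
  refine ⟨hT.toFinset.image rep, fun i => ?_⟩
  obtain ⟨χ, hχT, hχ⟩ := h1 i
  have hex : ∃ a : F, HasChar a χ := ⟨g i, hχ⟩
  have hrep : rep χ = hex.choose := dif_pos hex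
  have hs := hex.choose_spec
  rw [← hrep] at hs
  exact ⟨rep χ, Finset.mem_image.mpr ⟨χ, hT.mem_toFinset.mpr hχT, rfl⟩, h2 _ _ χ hs hχ⟩

end

end Fermat.Agent.S48.An1.Desc
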