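import Fermat.Agent.S48.An1.Desc.Main
import Fermat.Agent.S48.X1.F1Q

/-!
# S48 / An1 / Desc / F1 : stability of `ℂ(j, x_{(0,a)})` under `Aut(ℂ)`

* `stable_adjoin` : generic; a field generated over `ℂ` by a set which is mapped into the field by all the `coeffMap σ` is stable.
* `coeffMap_xs₀_zeta` : `σ x_{(0,a)} = x_{(0, c a)}` with `c` prime to `M`.
* `stable_FC1` : the field `ℂ(j, x_{(0,a)} : a ∈ (ℤ/M)ˣ)` is stable.
* `data_of_model` : `Desc.Data` from a model whose `j` is the formal `j`.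
-/

set_option autoImplicit false

open AlgebraicCurve ModularCurve
open scoped IntermediateField MatrixGroups

namespace Fermat.Agent.S48.An1.Desc

noncomputable section

theorem stable_adjoin (S : Set (LaurentSeries ℂ))
    (hS : ∀ (σ : ℂ ≃+* ℂ), ∀ x ∈ S, coeffMap (σ : ℂ →+* ℂ) x ∈ IntermediateField.adjoin ℂ S)
    (σ : ℂ ≃+* ℂ) (x : LaurentSeries ℂ) (hx : x ∈ IntermediateField.adjoin ℂ S) :
    coeffMap (σ : ℂ →+* ℂ) x ∈ IntermediateField.adjoin ℂ S := by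
  induction hx using IntermediateField.adjoin_induction with
  | mem x hx => exact hS σ x hx
  | algebraMap c =>
    rw [coeffMap_algebraMap]
    exact IntermediateField.algebraMap_mem _ _
  | add x y _ _ hx hy => rw [map_add]; exact add_mem hx hy
  | inv x _ hx => rw [map_inv₀]; exact inv_mem hx
  | mul x y _ _ hx hy => rw [map_mul]; exact mul_mem hx hy

variable (M : ℕ) [NeZero M]

theorem exists_sigma_zeta (σ : ℂ ≃+* ℂ) :
    ∃ c : ℕ, c.Coprime M ∧ σ (EIS.zeta M) = EIS.zeta M ^ c := by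
  have h := X1.isPrimitiveRoot_zeta M
  have hσ : IsPrimitiveRoot (σ (EIS.zeta M)) M := h.map_of_injective σ.injective
  obtain ⟨c, -, hc⟩ := h.eq_pow_of_pow_eq_one hσ.pow_eq_one
  refine ⟨c, ?_, hc.symm⟩
  rw [← hc] at hσ
  exact (h.pow_iff_coprime (Nat.pos_of_ne_zero (NeZero.ne M)) c).mp hσ

theorem coeffMap_xs₀_zeta (σ : ℂ ≃+* ℂ) {c : ℕ} (hc : σ (EIS.zeta M) = EIS.zeta M ^ c)
    (a : ZMod M) :
    coeffMap (σ : ℂ →+* ℂ) (EIS.xs₀ (EIS.zeta M) a) = EIS.xs₀ (EIS.zeta M) ((c : ZMod M) * a) := by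
  rw [EIS.coeffMap_xs₀]
  have : (σ : ℂ →+* ℂ) (EIS.zeta M) = EIS.zeta M ^ c := hc
  rw [this, X1.xs₀_pow (X1.isPrimitiveRoot_zeta M).pow_eq_one]

/-- the generators over `ℂ`. -/
def GC1 : Set (LaurentSeries ℂ) :=
  Set.range fun a : (ZMod M)ˣ => EIS.xs₀ (EIS.zeta M) (a : ZMod M)

theorem stable_FC1 (σ : ℂ ≃+* ℂ) (x : LaurentSeries ℂ)
    (hx : x ∈ IntermediateField.adjoin ℂ (insert (jqModC ℂ) (GC1 M))) :
    coeffMap (σ : ℂ →+* ℂ) x ∈ IntermediateField.adjoin ℂ (insert (jqModC ℂ) (GC1 M)) := by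
  refine stable_adjoin _ ?_ σ x hx
  rintro τ y (rfl | ⟨a, rfl⟩)
  · rw [coeffMap_jqModC]
    exact IntermediateField.subset_adjoin _ _ (Set.mem_insert _ _)
  · obtain ⟨c, hc, hτ⟩ := exists_sigma_zeta M τ
    show coeffMap (τ : ℂ →+* ℂ) (EIS.xs₀ (EIS.zeta M) (a : ZMod M)) ∈ _
    rw [coeffMap_xs₀_zeta M τ hτ]
    refine IntermediateField.subset_adjoin _ _ (Set.mem_insert_of_mem _ ?_)
    exact ⟨ZMod.unitOfCoprime c hc * a, rfl⟩

/-- `Desc.Data` from a model. -/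
theorem data_of_model {Γ : Subgroup SL(2, ℤ)} {N : ℕ} [NeZero N]
    {FC : IntermediateField ℂ (LaurentSeries ℂ)} (MC : Model Γ N ℂ FC)
    (hj : (MC.j : LaurentSeries ℂ) = jqModC ℂ)
    (hst : ∀ (σ : ℂ ≃+* ℂ) (x : LaurentSeries ℂ), x ∈ FC → coeffMap (σ : ℂ →+* ℂ) x ∈ FC) :
    Data FC := by
  have hmem : jqModC ℂ ∈ FC := hj ▸ MC.j.2
  have hjj : MC.j = ⟨jqModC ℂ, hmem⟩ := Subtype.ext hj
  refine ⟨hmem, ?_, hst⟩
  rw [← hjj]
  exact MC.fin

end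

end Fermat.Agent.S48.An1.Desc
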