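import Fermat.Agent.S48.An1.Desc.Gen
import Fermat.Agent.S48.An1.Dvd
import Fermat.Agent.S48.An1.Char
import Fermat.Agent.ES.An.Root

/-!
# S48 / An1 / Desc / Main : descent `ℂ → ℚ̄` for an analytic model   (part (D) of board #1652)

`FC ⊆ ℂ((q))` with `Desc.Data FC`, `MC : Model Γ h ℂ FC` an analytic model, `ker` = "an invariant `m`-th root of an element of `FC` lies in
`FC`" (`Ker.mem_range_of_pow`).  Then every `f ∈ D_m(FC)` is, up to an `m`-th power of `FC`, of the form `coeffMap iotaC (w₀ ^ m)`,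
`w₀ ∈ ℚ̄((q))`.
-/

set_option autoImplicit false

open AlgebraicCurve ModularCurve UpperHalfPlane
open scoped MatrixGroups IntermediateField Manifold ModularForm

namespace Fermat.Agent.S48.An1.Desc

open Fermat.Agent.S24 Fermat.Agent.ES.An

noncomputable section

variable {Γ : Subgroup SL(2, ℤ)} {N : ℕ} [NeZero N] {F : Type} [Field F] [Algebra ℂ F]

/-- `χ` is the character of the `m`-th roots of `f`. -/
def HasCharM (MC : Model Γ N ℂ F) (m : ℕ) (f : F) (χ : Γ →* ℂˣ) : Prop :=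
  ∃ w : Mer, w ≠ 0 ∧ w ^ m = MC.φ f ∧ An1.IsChar w χ

variable (MC : Model Γ N ℂ F)

theorem exists_hasCharM (m : ℕ) (hm : 0 < m) (f : F) (hf0 : f ≠ 0) (hf : DivBy ℂ m f) :
    ∃ χ, HasCharM MC m f χ ∧ χ ^ m = 1 := by
  have hne : MC.φ f ≠ 0 := by rwa [Ne, map_eq_zero]
  obtain ⟨w, hw⟩ := exists_root m hm (MC.φ f) hne (fun τ => MC.dvd_ordAt m f hf τ)
  have hw0 : w ≠ 0 := by
    rintro rfl
    rw [zero_pow hm.ne'] at hw
    exact hne hw.symm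
  obtain ⟨χ, hχ, hχm⟩ := An1.exists_isChar_of_pow (Γ := Γ) m hm w hw0
    (fun γ => by rw [hw]; exact MC.inv γ _)
  exact ⟨χ, ⟨w, hw0, hw, hχ⟩, hχm⟩

variable {MC}

theorem HasCharM.mul {m : ℕ} {f g : F} {χ χ' : Γ →* ℂˣ}
    (h : HasCharM MC m f χ) (h' : HasCharM MC m g χ') : HasCharM MC m (f * g) (χ * χ') := by
  obtain ⟨w, hw0, hw, hχ⟩ := h
  obtain ⟨w', hw'0, hw', hχ'⟩ := h'
  exact ⟨w * w', mul_ne_zero hw0 hw'0, by rw [mul_pow, hw, hw', map_mul], hχ.mul hχ'⟩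

theorem HasCharM.inv {m : ℕ} {f : F} {χ : Γ →* ℂˣ}
    (h : HasCharM MC m f χ) : HasCharM MC m f⁻¹ χ⁻¹ := by
  obtain ⟨w, hw0, hw, hχ⟩ := h
  exact ⟨w⁻¹, inv_ne_zero hw0, by rw [inv_pow, hw, map_inv₀], hχ.inv⟩

/-- the kernel hypothesis. -/
def Ker (MC : Model Γ N ℂ F) : Prop :=
  ∀ (m : ℕ), 0 < m → ∀ (w : Mer) (f : F), w ^ m = MC.φ f →
    (∀ γ : Γ, cmp (slp (γ : SL(2, ℤ))) w = w) → ∃ g : F, MC.φ g = w

theorem HasCharM.exists_root (ker : Ker MC) {m : ℕ} (hm : 0 < m) {f : F}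
    (h : HasCharM MC m f 1) : ∃ g : F, f = g ^ m := by
  obtain ⟨w, hw0, hw, hχ⟩ := h
  obtain ⟨g, hg⟩ := ker m hm w f hw (An1.isChar_one_iff.mp hχ)
  refine ⟨g, MC.φ.injective ?_⟩
  rw [map_pow, hg, hw]

/-- two elements with the same character differ by an `m`-th power. -/
theorem HasCharM.exists_eq_mul_pow (ker : Ker MC) {m : ℕ} (hm : 0 < m) {f g : F}
    {χ : Γ →* ℂˣ} (h : HasCharM MC m f χ) (h' : HasCharM MC m g χ) :
    ∃ k : F, k ≠ 0 ∧ g = f * k ^ m := by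
  have hf0 : f ≠ 0 := by
    obtain ⟨w, hw0, hw, -⟩ := h
    rintro rfl
    rw [map_zero] at hw
    exact hw0 ((pow_eq_zero_iff hm.ne').mp hw)
  have hg0 : g ≠ 0 := by
    obtain ⟨w, hw0, hw, -⟩ := h'
    rintro rfl
    rw [map_zero] at hw
    exact hw0 ((pow_eq_zero_iff hm.ne').mp hw)
  have h1 : HasCharM MC m (g * f⁻¹) 1 := by
    have h2 := h'.mul h.inv
    have h3 : χ * χ⁻¹ = 1 := mul_inv_cancel χ
    rw [h3] at h2
    exact h2
  obtain ⟨k, hk⟩ := h1.exists_root ker hm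
  refine ⟨k, ?_, ?_⟩
  · rintro rfl
    rw [zero_pow hm.ne'] at hk
    exact (mul_ne_zero hg0 (inv_ne_zero hf0)) hk
  · rw [← hk]
    field_simp

/-- **Descent for a model.** -/
theorem descent_of_model [Γ.FiniteIndex] {FC : IntermediateField ℂ (LaurentSeries ℂ)}
    (D : Data FC) (MC : Model Γ N ℂ FC) (ker : Ker MC) (m : ℕ) (hm : 0 < m) (f : FC)
    (hf0 : f ≠ 0) (hf : DivBy ℂ m f) :
    ∃ (w₀ : LaurentSeries Kb) (h : FC), h ≠ 0 ∧
      coeffMap iotaC (w₀ ^ m) = ((f * h ^ m : FC) : LaurentSeries ℂ) := by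
  refine D.descent m hm f hf0 hf ?_
  refine exists_finite_reps m (HasCharM MC m) {χ : Γ →* ℂˣ | χ ^ m = 1}
    (An1.finite_chars m hm) (fun σ : ℂ ≃+* ℂ => D.sig σ f) (fun σ => ?_)
    (fun a b χ ha hb => ha.exists_eq_mul_pow ker hm hb)
  have h0 : D.sig σ f ≠ 0 := by rwa [Ne, map_eq_zero]
  obtain ⟨χ, h1, h2⟩ := exists_hasCharM MC m hm _ h0 (D.divBy_sig m f hf σ)
  exact ⟨χ, h2, h1⟩

end

end Fermat.Agent.S48.An1.Desc
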